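/-
S25 / DICT, leaf (BC), helper file (helper2390): CANONICAL BASE CHANGE FOR SECTIONS OF PULLBACKS.
Mathlib only.  (Same content as helper2390 `SLib/PullbackSections.lean`, namespace renamed.)

For `h : X ⟶ Y`, `M : Y.Modules`, opens `V ⊆ Y`, `U ⊆ X` with `U ≤ h ⁻¹ᵁ V`:

* `pullbackSections h M V U hUV : Γ(M, V) ⟶ Γ((Modules.pullback h).obj M, U)` (morphism of `Ab`):
  the canonical "pull back a section" map (unit of `pullback h ⊣ pushforward h`, then restriction).
  - `pullbackSections_naturality` (natural in `M`),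
  - `pullbackSections_res` (compatible with the restriction maps in `V` and in `U`),
  - `pullbackSections_smul` (`c (r • x) = h.appLE V U hUV r • c x`),
  - `pullbackSections_comp` (compatible with `Modules.pullbackComp`),
  - `pullbackSections_openImmersion`, `pullbackSections_bijective_of_image_eq` (open immersions).
* `IsBC φ c`: "`c : A →+ B` is a base change of the `R`-module `A` along `φ : R →+* S`", in
  universal-property form (all types in one universe, no instance juggling), with transport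
  lemmas `IsBC.comp_equiv`, `IsBC.equiv_comp`, uniqueness `IsBC.exists_equiv`, and the translations
  `IsBC.exists_tensorEquiv`, `IsBC.isBaseChange` to Mathlib's tensor product / `IsBaseChange`.
* `pullbackTildeIso φ : tilde.functor R ⋙ pullback (Spec.map φ) ≅ extendScalars φ.hom ⋙ tilde.functor S`
  and `pullbackTildeIso_unitSec` (it maps the pulled back section of `toOpen n` to `toOpen (1 ⊗ n)`).
* `SectionsBC h M V U hUV := IsBC (h.appLE V U hUV).hom (pullbackSections h M V U hUV).hom`.
* MAIN `sectionsBC_of_isAffineOpen`: `M` quasi-coherent, `V`, `U` affine `⟹ SectionsBC h M V U hUV`.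
* `exists_tensorEquiv_pullbackSections`:
  `∃ e : Γ(X, U) ⊗[Γ(Y, V)] Γ(M, V) ≃ₗ[Γ(X, U)] Γ(h^* M, U), ∀ s m, e (s ⊗ₜ m) = s • c m`.
* `isBaseChange_pullbackSections`: the same as Mathlib `IsBaseChange`.
-/
import Mathlib

set_option autoImplicit false

universe u

namespace Fermat.Agent.S25.DICT.H2050.BaseChange

open TensorProduct

/-- `c : A →+ B` is a base change of the `R`-module `A` along `φ : R →+* S`
(universal property form): `c` is `φ`-semilinear and every `φ`-semilinear additive map from `A`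
to an `S`-module factors uniquely through `c`. -/
def IsBC {R S A B : Type u} [CommRing R] [CommRing S] [AddCommGroup A] [Module R A]
    [AddCommGroup B] [Module S B] (φ : R →+* S) (c : A →+ B) : Prop :=
  (∀ (r : R) (a : A), c (r • a) = φ r • c a) ∧
  ∀ (Q : Type u) [AddCommGroup Q] [Module S Q] (g : A →+ Q),
    (∀ (r : R) (a : A), g (r • a) = φ r • g a) → ∃! g' : B →ₗ[S] Q, ∀ a, g' (c a) = g a

section

variable {R S A B : Type u} [CommRing R] [CommRing S] [AddCommGroup A] [Module R A]
  [AddCommGroup B] [Module S B]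

lemma IsBC.map_smul {φ : R →+* S} {c : A →+ B} (hc : IsBC φ c) (r : R) (a : A) :
    c (r • a) = φ r • c a := hc.1 r a

lemma IsBC.congr {φ φ' : R →+* S} {c c' : A →+ B} (hc : IsBC φ c) (hφ : ∀ r, φ r = φ' r)
    (hcc : ∀ a, c a = c' a) : IsBC φ' c' := by
  obtain rfl : φ = φ' := RingHom.ext hφ
  obtain rfl : c = c' := AddMonoidHom.ext hcc
  exact hc

/-- The model base change `a ↦ 1 ⊗ a`. -/
lemma isBC_tmul (R S A : Type u) [CommRing R] [CommRing S] [Algebra R S] [AddCommGroup A]
    [Module R A] :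
    IsBC (algebraMap R S) ((TensorProduct.mk R S A 1).toAddMonoidHom : A →+ S ⊗[R] A) := by
  refine ⟨fun r a => ?_, fun Q _ _ g hg => ?_⟩
  · change (1 : S) ⊗ₜ[R] (r • a) = algebraMap R S r • ((1 : S) ⊗ₜ[R] a)
    rw [TensorProduct.smul_tmul', smul_eq_mul, mul_one, ← TensorProduct.smul_tmul,
      Algebra.smul_def, mul_one]
  · let _ : Module R Q := Module.compHom Q (algebraMap R S)
    have : IsScalarTower R S Q := ⟨fun r s q => by
      change (r • s) • q = algebraMap R S r • (s • q)
      rw [Algebra.smul_def, mul_smul]⟩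
    let gR : A →ₗ[R] Q := { toFun := g, map_add' := g.map_add, map_smul' := fun r a => hg r a }
    refine ⟨LinearMap.liftBaseChange S gR, fun a => ?_, fun g'' hg'' => ?_⟩
    · change LinearMap.liftBaseChange S gR ((1 : S) ⊗ₜ[R] a) = g a
      rw [LinearMap.liftBaseChange_tmul, one_smul]
      rfl
    · apply TensorProduct.AlgebraTensorModule.ext
      intro s a
      have h1 : g'' (s ⊗ₜ[R] a) = s • g a := by
        have : s ⊗ₜ[R] a = s • ((1 : S) ⊗ₜ[R] a) := by
          rw [TensorProduct.smul_tmul', smul_eq_mul, mul_one]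
        rw [this, map_smul]
        congr 1
        exact hg'' a
      rw [h1, LinearMap.liftBaseChange_tmul]
      rfl

end

section transport

variable {R R' S S' A A' B B' : Type u} [CommRing R] [CommRing R'] [CommRing S] [CommRing S']
  [AddCommGroup A] [Module R A] [AddCommGroup A'] [Module R' A']
  [AddCommGroup B] [Module S B] [AddCommGroup B'] [Module S' B']

/-- Transport of a base change along a semilinear bijection of the target. -/
lemma IsBC.comp_equiv {φ : R →+* S} {c : A →+ B} (hc : IsBC φ c) (σ : S ≃+* S') (e : B ≃+ B')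
    (he : ∀ (s : S) (b : B), e (s • b) = σ s • e b) :
    IsBC ((σ : S →+* S').comp φ) ((e : B →+ B').comp c) := by
  refine ⟨fun r a => ?_, fun Q _ _ g hg => ?_⟩
  · change e (c (r • a)) = σ (φ r) • e (c a)
    rw [hc.1, he]
  · let _ : Module S Q := Module.compHom Q (σ : S →+* S')
    have hsmul : ∀ (s : S) (q : Q), s • q = σ s • q := fun _ _ => rfl
    have he' : ∀ (s' : S') (b' : B'), e.symm (s' • b') = σ.symm s' • e.symm b' := by
      intro s' b'
      apply e.injective
      rw [he, e.apply_symm_apply, e.apply_symm_apply, σ.apply_symm_apply]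
    obtain ⟨g₀, hg₀, hu⟩ := hc.2 Q g (fun r a => by rw [hsmul]; exact hg r a)
    let g' : B' →ₗ[S'] Q :=
      { toFun := fun b' => g₀ (e.symm b')
        map_add' := fun x y => by rw [map_add, map_add]
        map_smul' := fun s' b' => by
          rw [he', g₀.map_smul, hsmul, σ.apply_symm_apply]
          rfl }
    refine ⟨g', fun a => ?_, fun g'' hg'' => ?_⟩
    · change g₀ (e.symm (e (c a))) = g a
      rw [e.symm_apply_apply]
      exact hg₀ a
    · let g₁ : B →ₗ[S] Q :=
        { toFun := fun b => g'' (e b)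
          map_add' := fun x y => by rw [map_add, map_add]
          map_smul' := fun s b => by
            rw [he, g''.map_smul]
            rfl }
      have h1 : g₁ = g₀ := hu g₁ (fun a => hg'' a)
      ext b'
      change g'' b' = g₀ (e.symm b')
      rw [← h1]
      change g'' b' = g'' (e (e.symm b'))
      rw [e.apply_symm_apply]

/-- Transport of a base change along a semilinear bijection of the source. -/
lemma IsBC.equiv_comp {φ : R →+* S} {c : A →+ B} (hc : IsBC φ c) (ρ : R' ≃+* R) (d : A' ≃+ A)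
    (hd : ∀ (r : R') (a : A'), d (r • a) = ρ r • d a) :
    IsBC (φ.comp (ρ : R' →+* R)) (c.comp (d : A' →+ A)) := by
  refine ⟨fun r a => ?_, fun Q _ _ g hg => ?_⟩
  · change c (d (r • a)) = φ (ρ r) • c (d a)
    rw [hd, hc.1]
  · have hd' : ∀ (r : R) (a : A), d.symm (r • a) = ρ.symm r • d.symm a := by
      intro r a
      apply d.injective
      rw [hd, d.apply_symm_apply, d.apply_symm_apply, ρ.apply_symm_apply]
    obtain ⟨g₀, hg₀, hu⟩ := hc.2 Q (g.comp (d.symm : A →+ A')) (fun r a => by
      change g (d.symm (r • a)) = φ r • g (d.symm a)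
      rw [hd', hg]
      change φ (ρ (ρ.symm r)) • _ = _
      rw [ρ.apply_symm_apply])
    refine ⟨g₀, fun a => ?_, fun g'' hg'' => ?_⟩
    · change g₀ (c (d a)) = g a
      rw [hg₀]
      change g (d.symm (d a)) = g a
      rw [d.symm_apply_apply]
    · refine hu g'' (fun a => ?_)
      change g'' (c a) = g (d.symm a)
      rw [← hg'' (d.symm a)]
      change g'' (c a) = g'' (c (d (d.symm a)))
      rw [d.apply_symm_apply]

end transport

section uniqueness

variable {R S A B B' : Type u} [CommRing R] [CommRing S]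
  [AddCommGroup A] [Module R A] [AddCommGroup B] [Module S B] [AddCommGroup B'] [Module S B']

/-- Two base changes of the same module along the same ring homomorphism are canonically
isomorphic. -/
theorem IsBC.exists_equiv {φ : R →+* S} {c : A →+ B} {c' : A →+ B'} (hc : IsBC φ c)
    (hc' : IsBC φ c') : ∃ e : B ≃ₗ[S] B', ∀ a, e (c a) = c' a := by
  obtain ⟨f, hf, -⟩ := hc.2 B' c' hc'.1
  obtain ⟨f', hf', -⟩ := hc'.2 B c hc.1
  obtain ⟨i, -, hi⟩ := hc.2 B c hc.1
  obtain ⟨i', -, hi'⟩ := hc'.2 B' c' hc'.1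
  have h1 : f'.comp f = LinearMap.id := by
    rw [hi (f'.comp f) (fun a => by change f' (f (c a)) = c a; rw [hf, hf']),
      hi LinearMap.id (fun a => rfl)]
  have h2 : f.comp f' = LinearMap.id := by
    rw [hi' (f.comp f') (fun a => by change f (f' (c' a)) = c' a; rw [hf', hf]),
      hi' LinearMap.id (fun a => rfl)]
  exact ⟨LinearEquiv.ofLinearMap f f' h2 h1, hf⟩

/-- The canonical map `S ⊗[R] A → B` of a base change is a linear equivalence. -/
theorem IsBC.exists_tensorEquiv [Algebra R S] {c : A →+ B} (hc : IsBC (algebraMap R S) c) :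
    ∃ e : S ⊗[R] A ≃ₗ[S] B, ∀ (s : S) (a : A), e (s ⊗ₜ[R] a) = s • c a := by
  obtain ⟨e, he⟩ := (isBC_tmul R S A).exists_equiv hc
  refine ⟨e, fun s a => ?_⟩
  have : s ⊗ₜ[R] a = s • ((1 : S) ⊗ₜ[R] a) := by
    rw [TensorProduct.smul_tmul', smul_eq_mul, mul_one]
  rw [this, e.map_smul]
  congr 1
  exact he a

/-- Translation to Mathlib's `IsBaseChange`. -/
theorem IsBC.isBaseChange [Algebra R S] [Module R B] [IsScalarTower R S B] {c : A →+ B}
    (hc : IsBC (algebraMap R S) c) (f : A →ₗ[R] B) (hf : ∀ a, f a = c a) : IsBaseChange S f := by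
  obtain ⟨e, he⟩ := hc.exists_tensorEquiv
  refine IsBaseChange.of_equiv e (fun x => ?_)
  rw [he, one_smul, hf]

end uniqueness

end Fermat.Agent.S25.DICT.H2050.BaseChange

open CategoryTheory CategoryTheory.Limits AlgebraicGeometry Opposite TopologicalSpace

namespace Fermat.Agent.S25.DICT.H2050.BaseChange

open AlgebraicGeometry.Scheme


variable {X Y Z : Scheme.{u}}

/-- naturality of the action of a morphism of modules on sections -/
lemma app_naturality {M N : X.Modules} (φ : M ⟶ N) {U V : X.Opens} (i : U ⟶ V) :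
    φ.app V ≫ N.presheaf.map i.op = M.presheaf.map i.op ≫ φ.app U :=
  (φ.mapPresheaf.naturality i.op).symm

lemma app_naturality_apply {M N : X.Modules} (φ : M ⟶ N) {U V : X.Opens} (i : U ⟶ V)
    (x : Γ(M, V)) :
    N.presheaf.map i.op (φ.app V x) = φ.app U (M.presheaf.map i.op x) :=
  congr($(app_naturality φ i) x)

lemma map_map_apply (M : X.Modules) {U V W : X.Opens} (i : U ⟶ V) (j : V ⟶ W) (x : Γ(M, W)) :
    M.presheaf.map i.op (M.presheaf.map j.op x) = M.presheaf.map (i ≫ j).op x := by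
  rw [op_comp, Functor.map_comp]
  rfl

lemma map_congr_apply (M : X.Modules) {U V : X.Opens} (i j : U ⟶ V) (x : Γ(M, V)) :
    M.presheaf.map i.op x = M.presheaf.map j.op x := by
  rw [Subsingleton.elim i j]

/-- The unit of the pullback-pushforward adjunction, with a clean type. -/
noncomputable def unitHom (h : X ⟶ Y) (M : Y.Modules) :
    M ⟶ (Modules.pushforward h).obj ((Modules.pullback h).obj M) :=
  (Modules.pullbackPushforwardAdjunction h).unit.app M

lemma unitHom_naturality (h : X ⟶ Y) {M N : Y.Modules} (φ : M ⟶ N) :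
    unitHom h M ≫ (Modules.pushforward h).map ((Modules.pullback h).map φ) = φ ≫ unitHom h N :=
  ((Modules.pullbackPushforwardAdjunction h).unit.naturality φ).symm

/-- The unit on sections: `Γ(M, V) → Γ(h^* M, h⁻¹ V)`. -/
noncomputable def unitSec (h : X ⟶ Y) (M : Y.Modules) (V : Y.Opens) :
    Γ(M, V) ⟶ Γ((Modules.pullback h).obj M, h ⁻¹ᵁ V) :=
  (unitHom h M).app V

lemma unitSec_res (h : X ⟶ Y) (M : Y.Modules) {V V' : Y.Opens} (hV : V' ≤ V) (x : Γ(M, V)) :
    ((Modules.pullback h).obj M).presheaf.map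
        (homOfLE (show h ⁻¹ᵁ V' ≤ h ⁻¹ᵁ V from fun _ hx => hV hx)).op (unitSec h M V x) =
      unitSec h M V' (M.presheaf.map (homOfLE hV).op x) :=
  app_naturality_apply (unitHom h M) (homOfLE hV) x

lemma unitSec_naturality (h : X ⟶ Y) {M N : Y.Modules} (φ : M ⟶ N) (V : Y.Opens) (x : Γ(M, V)) :
    ((Modules.pullback h).map φ).app (h ⁻¹ᵁ V) (unitSec h M V x) = unitSec h N V (φ.app V x) :=
  congr($(congrArg (fun ψ => Modules.Hom.app ψ V) (unitHom_naturality h φ)) x)

/-- The canonical map "pull back a section": `Γ(M, V) → Γ(h^* M, U)` for `U ≤ h⁻¹ V`. -/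
noncomputable def pullbackSections (h : X ⟶ Y) (M : Y.Modules) (V : Y.Opens) (U : X.Opens)
    (hUV : U ≤ h ⁻¹ᵁ V) : Γ(M, V) ⟶ Γ((Modules.pullback h).obj M, U) :=
  unitSec h M V ≫ ((Modules.pullback h).obj M).presheaf.map (homOfLE hUV).op

lemma pullbackSections_apply (h : X ⟶ Y) (M : Y.Modules) (V : Y.Opens) (U : X.Opens)
    (hUV : U ≤ h ⁻¹ᵁ V) (x : Γ(M, V)) :
    pullbackSections h M V U hUV x =
      ((Modules.pullback h).obj M).presheaf.map (homOfLE hUV).op (unitSec h M V x) := rfl

/-- (P2) compatibility with restriction maps. -/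
lemma pullbackSections_res (h : X ⟶ Y) (M : Y.Modules) {V V' : Y.Opens} {U U' : X.Opens}
    (hUV : U ≤ h ⁻¹ᵁ V) (hUV' : U' ≤ h ⁻¹ᵁ V') (hV : V' ≤ V) (hU : U' ≤ U) (x : Γ(M, V)) :
    ((Modules.pullback h).obj M).presheaf.map (homOfLE hU).op (pullbackSections h M V U hUV x) =
      pullbackSections h M V' U' hUV' (M.presheaf.map (homOfLE hV).op x) := by
  rw [pullbackSections_apply, pullbackSections_apply, map_map_apply, ← unitSec_res h M hV,
    map_map_apply]
  exact map_congr_apply _ _ _ _

/-- (P1) naturality in the module. -/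
lemma pullbackSections_naturality (h : X ⟶ Y) {M N : Y.Modules} (φ : M ⟶ N) (V : Y.Opens)
    (U : X.Opens) (hUV : U ≤ h ⁻¹ᵁ V) (x : Γ(M, V)) :
    ((Modules.pullback h).map φ).app U (pullbackSections h M V U hUV x) =
      pullbackSections h N V U hUV (φ.app V x) := by
  rw [pullbackSections_apply, pullbackSections_apply, ← app_naturality_apply, unitSec_naturality]

lemma pushforward_smul (h : X ⟶ Y) (N : X.Modules) (V : Y.Opens) (r : Γ(Y, V))
    (n : Γ((Modules.pushforward h).obj N, V)) :
    r • n = (show Γ(N, h ⁻¹ᵁ V) from (h.app V r) • (show Γ(N, h ⁻¹ᵁ V) from n)) := rfl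

lemma unitSec_smul (h : X ⟶ Y) (M : Y.Modules) (V : Y.Opens) (r : Γ(Y, V)) (x : Γ(M, V)) :
    unitSec h M V (r • x) = (h.app V r) • unitSec h M V x :=
  Modules.Hom.app_smul (unitHom h M) r x

/-- (P3) semilinearity. -/
lemma pullbackSections_smul (h : X ⟶ Y) (M : Y.Modules) (V : Y.Opens) (U : X.Opens)
    (hUV : U ≤ h ⁻¹ᵁ V) (r : Γ(Y, V)) (x : Γ(M, V)) :
    pullbackSections h M V U hUV (r • x) = (h.appLE V U hUV r) • pullbackSections h M V U hUV x := by
  rw [pullbackSections_apply, unitSec_smul, Modules.map_smul]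
  rfl

/-- The unit for a composition, in terms of `pullbackComp`. -/
lemma unitHom_comp (f : X ⟶ Y) (g : Y ⟶ Z) (M : Z.Modules) :
    unitHom g M ≫ (Modules.pushforward g).map (unitHom f ((Modules.pullback g).obj M)) ≫
        (Modules.pushforwardComp f g).hom.app _ =
      unitHom (f ≫ g) M ≫
        (Modules.pushforward (f ≫ g)).map ((Modules.pullbackComp f g).inv.app M) := by
  have h1 := unit_conjugateEquiv
    ((Modules.pullbackPushforwardAdjunction g).comp (Modules.pullbackPushforwardAdjunction f))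
    (Modules.pullbackPushforwardAdjunction (f ≫ g)) (Modules.pullbackComp f g).inv M
  rw [Modules.conjugateEquiv_pullbackComp_inv] at h1
  refine Eq.trans ?_ h1
  rw [Adjunction.comp_unit_app, Category.assoc]
  rfl

lemma unitSec_comp (f : X ⟶ Y) (g : Y ⟶ Z) (M : Z.Modules) (W : Z.Opens) (x : Γ(M, W)) :
    ((Modules.pullbackComp f g).inv.app M).app ((f ≫ g) ⁻¹ᵁ W) (unitSec (f ≫ g) M W x) =
      unitSec f ((Modules.pullback g).obj M) (g ⁻¹ᵁ W) (unitSec g M W x) :=
  congr($(congrArg (fun ψ => Modules.Hom.app ψ W) (unitHom_comp f g M)) x).symm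

/-- (P4) compatibility of `pullbackSections` with composition. -/
lemma pullbackSections_comp (f : X ⟶ Y) (g : Y ⟶ Z) (M : Z.Modules) (W : Z.Opens) (V : Y.Opens)
    (U : X.Opens) (hVW : V ≤ g ⁻¹ᵁ W) (hUV : U ≤ f ⁻¹ᵁ V) (x : Γ(M, W)) :
    ((Modules.pullbackComp f g).inv.app M).app U
        (pullbackSections (f ≫ g) M W U (fun _ hx => hVW (hUV hx)) x) =
      pullbackSections f ((Modules.pullback g).obj M) V U hUV (pullbackSections g M W V hVW x) := by
  rw [pullbackSections_apply, pullbackSections_apply, pullbackSections_apply,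
    ← app_naturality_apply, unitSec_comp,
    ← unitSec_res f ((Modules.pullback g).obj M) hVW, map_map_apply]
  exact map_congr_apply _ _ _ _

lemma unitHom_openImmersion (f : X ⟶ Y) [IsOpenImmersion f] (M : Y.Modules) :
    (Modules.restrictAdjunction f).unit.app M ≫
        (Modules.pushforward f).map ((Modules.restrictFunctorIsoPullback f).hom.app M) =
      unitHom f M :=
  Adjunction.unit_leftAdjointUniq_hom_app (Modules.restrictAdjunction f)
    (Modules.pullbackPushforwardAdjunction f) M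

lemma image_le_of_le_preimage (f : X ⟶ Y) [IsOpenImmersion f] {V : Y.Opens} {U : X.Opens}
    (hUV : U ≤ f ⁻¹ᵁ V) : f ''ᵁ U ≤ V :=
  (f.image_mono hUV).trans (f.image_preimage_le V)

lemma unitSec_openImmersion (f : X ⟶ Y) [IsOpenImmersion f] (M : Y.Modules) (V : Y.Opens)
    (x : Γ(M, V)) :
    unitSec f M V x = ((Modules.restrictFunctorIsoPullback f).hom.app M).app (f ⁻¹ᵁ V)
      (M.presheaf.map (homOfLE (f.image_preimage_le V)).op x) :=
  congr($(congrArg (fun ψ => Modules.Hom.app ψ V) (unitHom_openImmersion f M)) x).symm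

/-- (P5) for an open immersion, `pullbackSections` is restriction followed by the
comparison isomorphism `restrictFunctorIsoPullback`. -/
lemma pullbackSections_openImmersion (f : X ⟶ Y) [IsOpenImmersion f] (M : Y.Modules)
    (V : Y.Opens) (U : X.Opens) (hUV : U ≤ f ⁻¹ᵁ V) (x : Γ(M, V)) :
    pullbackSections f M V U hUV x = ((Modules.restrictFunctorIsoPullback f).hom.app M).app U
      (M.presheaf.map (homOfLE (image_le_of_le_preimage f hUV)).op x) := by
  rw [pullbackSections_apply, unitSec_openImmersion, app_naturality_apply]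
  congr 1
  exact (map_map_apply M (f.opensFunctor.map (homOfLE hUV))
    (homOfLE (f.image_preimage_le V)) x).trans (map_congr_apply _ _ _ _)

/-- (P5) for an open immersion `f`, `pullbackSections f M (f ''ᵁ U) U` is bijective. -/
lemma pullbackSections_openImmersion_bijective (f : X ⟶ Y) [IsOpenImmersion f] (M : Y.Modules)
    (U : X.Opens) :
    Function.Bijective (pullbackSections f M (f ''ᵁ U) U (f.preimage_image_eq U).ge) := by
  have h1 : ∀ x, pullbackSections f M (f ''ᵁ U) U (f.preimage_image_eq U).ge x =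
      ((Modules.restrictFunctorIsoPullback f).hom.app M).app U x := by
    intro x
    rw [pullbackSections_openImmersion]
    congr 1
    exact congr($(M.presheaf.map_id _) x)
  have h2 : Function.Bijective (((Modules.restrictFunctorIsoPullback f).hom.app M).app U) :=
    (ConcreteCategory.isIso_iff_bijective _).mp inferInstance
  refine ⟨fun a b hab => h2.1 ?_, fun y => ?_⟩
  · rw [← h1 a, ← h1 b]; exact hab
  · obtain ⟨x, hx⟩ := h2.2 y
    exact ⟨x, (h1 x).trans hx⟩


variable {R S : CommRingCat.{u}} (φ : R ⟶ S)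

/-- Global sections of a pushforward along `Spec φ`. -/
noncomputable def gammaPushforwardIso :
    Scheme.Modules.pushforward (Spec.map φ) ⋙ moduleSpecΓFunctor (R := R) ≅
      moduleSpecΓFunctor (R := S) ⋙ ModuleCat.restrictScalars φ.hom :=
  Functor.isoWhiskerRight (pushforwardCompModulesSpecToSheafIso φ)
      (TopCat.Sheaf.forget _ _ ⋙ (CategoryTheory.evaluation _ _).obj (.op ⊤)) ≪≫
    NatIso.ofComponents (fun M => Iso.refl _) (fun f => by rfl)

noncomputable def adjOne : tilde.functor R ⋙ Scheme.Modules.pullback (Spec.map φ) ⊣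
    Scheme.Modules.pushforward (Spec.map φ) ⋙ moduleSpecΓFunctor (R := R) :=
  (tilde.adjunction (R := R)).comp (Scheme.Modules.pullbackPushforwardAdjunction (Spec.map φ))

noncomputable def adjTwo : ModuleCat.extendScalars φ.hom ⋙ tilde.functor S ⊣
    Scheme.Modules.pushforward (Spec.map φ) ⋙ moduleSpecΓFunctor (R := R) :=
  ((ModuleCat.extendRestrictScalarsAdj φ.hom).comp (tilde.adjunction (R := S))).ofNatIsoRight
      (gammaPushforwardIso φ).symm

/-- Pullback of `tilde` along a morphism of affine schemes is `tilde` of the extension of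
scalars. -/
noncomputable def pullbackTildeIso :
    tilde.functor R ⋙ Scheme.Modules.pullback (Spec.map φ) ≅
      ModuleCat.extendScalars φ.hom ⋙ tilde.functor S :=
  Adjunction.leftAdjointUniq (adjOne φ) (adjTwo φ)

lemma adjOne_unit_pullbackTildeIso (N : ModuleCat.{u} R) :
    (adjOne φ).unit.app N ≫ (Scheme.Modules.pushforward (Spec.map φ) ⋙
      moduleSpecΓFunctor (R := R)).map ((pullbackTildeIso φ).hom.app N) = (adjTwo φ).unit.app N :=
  Adjunction.unit_leftAdjointUniq_hom_app (adjOne φ) (adjTwo φ) N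

open TensorProduct in
lemma pullbackTildeIso_unitSec (N : ModuleCat.{u} R) (n : N) :
    ((pullbackTildeIso φ).hom.app N).app ((Spec.map φ) ⁻¹ᵁ ⊤)
        (unitSec (Spec.map φ) ((tilde.functor R).obj N) ⊤ (tilde.toOpen N ⊤ n)) =
      tilde.toOpen ((ModuleCat.extendScalars φ.hom).obj N) ⊤
        ((ModuleCat.extendRestrictScalarsAdj φ.hom).unit.app N n) := by
  have := congr($(adjOne_unit_pullbackTildeIso φ N) n)
  simp only [adjOne, adjTwo, Adjunction.comp_unit_app, Adjunction.ofNatIsoRight_unit,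
    NatTrans.comp_app, Functor.whiskerLeft_app, Iso.symm_hom] at this
  exact this

/-- The unit of extension/restriction of scalars is a base change. -/
lemma isBC_extendScalars_unit (N : ModuleCat.{u} R) :
    IsBC (B := ((ModuleCat.extendScalars φ.hom).obj N)) φ.hom
      ((ModuleCat.extendRestrictScalarsAdj φ.hom).unit.app N).hom.toAddMonoidHom := by
  refine ⟨fun r n => ?_, fun Q _ _ g hg => ?_⟩
  · exact ((ModuleCat.extendRestrictScalarsAdj φ.hom).unit.app N).hom.map_smul r n
  · let gM : N ⟶ (ModuleCat.restrictScalars φ.hom).obj (ModuleCat.of S Q) :=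
      ModuleCat.ofHom (Y := (ModuleCat.restrictScalars φ.hom).obj (ModuleCat.of S Q))
        { toFun := g, map_add' := g.map_add, map_smul' := fun r n => hg r n }
    let g' : (ModuleCat.extendScalars φ.hom).obj N ⟶ ModuleCat.of S Q :=
      ((ModuleCat.extendRestrictScalarsAdj φ.hom).homEquiv N (ModuleCat.of S Q)).symm gM
    have h1 : (ModuleCat.extendRestrictScalarsAdj φ.hom).unit.app N ≫
        (ModuleCat.restrictScalars φ.hom).map g' = gM := by
      have := ((ModuleCat.extendRestrictScalarsAdj φ.hom).homEquiv N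
        (ModuleCat.of S Q)).apply_symm_apply gM
      rwa [Adjunction.homEquiv_unit] at this
    refine ⟨g'.hom, fun n => ?_, fun g'' hg'' => ?_⟩
    · exact congr($h1 n)
    · let G'' : (ModuleCat.extendScalars φ.hom).obj N ⟶ ModuleCat.of S Q :=
        ModuleCat.ofHom (X := (ModuleCat.extendScalars φ.hom).obj N) (Y := ModuleCat.of S Q) g''
      have h2 : (ModuleCat.extendRestrictScalarsAdj φ.hom).homEquiv N (ModuleCat.of S Q) G'' =
          gM := by
        rw [Adjunction.homEquiv_unit]
        ext n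
        exact hg'' n
      have h3 : G'' = g' := by
        change G'' = ((ModuleCat.extendRestrictScalarsAdj φ.hom).homEquiv N
          (ModuleCat.of S Q)).symm gM
        rw [← h2]
        exact (((ModuleCat.extendRestrictScalarsAdj φ.hom).homEquiv N
          (ModuleCat.of S Q)).symm_apply_apply _).symm
      change G''.hom = g'.hom
      rw [h3]

/-- `R ≃+* Γ(Spec R, ⊤)`. -/
noncomputable def gammaTopEquiv (R : CommRingCat.{u}) : R ≃+* Γ(Spec R, ⊤) :=
  (Scheme.ΓSpecIso R).symm.commRingCatIsoToRingEquiv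

lemma gammaTopEquiv_apply (R : CommRingCat.{u}) (r : R) :
    gammaTopEquiv R r = (Scheme.ΓSpecIso R).inv r := rfl

/-- `M ≃+ Γ(tilde M, ⊤)`. -/
noncomputable def toOpenTopEquiv (M : ModuleCat.{u} R) : M ≃+ Γ(tilde M, ⊤) :=
  AddEquiv.ofBijective (tilde.toOpen M ⊤).hom.toAddMonoidHom
    ((ConcreteCategory.isIso_iff_bijective (tilde.toOpen M ⊤)).mp inferInstance)

lemma toOpenTopEquiv_apply (M : ModuleCat.{u} R) (m : M) :
    toOpenTopEquiv M m = tilde.toOpen M ⊤ m := rfl

lemma toOpenTopEquiv_smul (M : ModuleCat.{u} R) (r : R) (m : M) :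
    toOpenTopEquiv M (r • m) = gammaTopEquiv R r • toOpenTopEquiv M m := by
  have h1 : toOpenTopEquiv M (r • m) = r • toOpenTopEquiv M m :=
    (tilde.toOpen M ⊤).hom.map_smul r m
  rw [h1, Scheme.Modules.smul_Spec_def, gammaTopEquiv_apply]
  congr 1

/-- An isomorphism of modules induces additive equivalences on sections. -/
noncomputable def appAddEquiv {X : Scheme.{u}} {M N : X.Modules} (e : M ≅ N) (U : X.Opens) :
    Γ(M, U) ≃+ Γ(N, U) where
  toFun := e.hom.app U
  invFun := e.inv.app U
  left_inv x := by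
    have : e.hom.app U ≫ e.inv.app U = 𝟙 _ := by
      rw [← Modules.Hom.comp_app, e.hom_inv_id]; rfl
    exact congr($this x)
  right_inv x := by
    have : e.inv.app U ≫ e.hom.app U = 𝟙 _ := by
      rw [← Modules.Hom.comp_app, e.inv_hom_id]; rfl
    exact congr($this x)
  map_add' x y := (e.hom.app U).hom.map_add x y

lemma appAddEquiv_apply {X : Scheme.{u}} {M N : X.Modules} (e : M ≅ N) (U : X.Opens)
    (x : Γ(M, U)) : appAddEquiv e U x = e.hom.app U x := rfl

lemma appAddEquiv_symm_apply {X : Scheme.{u}} {M N : X.Modules} (e : M ≅ N) (U : X.Opens)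
    (x : Γ(N, U)) : (appAddEquiv e U).symm x = e.inv.app U x := rfl

lemma appAddEquiv_smul {X : Scheme.{u}} {M N : X.Modules} (e : M ≅ N) (U : X.Opens)
    (r : Γ(X, U)) (x : Γ(M, U)) : appAddEquiv e U (r • x) = r • appAddEquiv e U x :=
  Modules.Hom.app_smul e.hom r x

lemma appAddEquiv_symm_smul {X : Scheme.{u}} {M N : X.Modules} (e : M ≅ N) (U : X.Opens)
    (r : Γ(X, U)) (x : Γ(N, U)) :
    (appAddEquiv e U).symm (r • x) = r • (appAddEquiv e U).symm x :=
  Modules.Hom.app_smul e.inv r x

/-- The affine case for `tilde N`. -/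
theorem isBC_unitSec_tilde (N : ModuleCat.{u} R) :
    IsBC ((Spec.map φ).app ⊤).hom (unitSec (Spec.map φ) ((tilde.functor R).obj N) ⊤).hom := by
  have h1 := isBC_extendScalars_unit φ N
  have h2 := h1.comp_equiv (gammaTopEquiv S)
    (toOpenTopEquiv ((ModuleCat.extendScalars φ.hom).obj N)) (toOpenTopEquiv_smul _)
  let σ' : Γ(Spec S, ⊤) ≃+* Γ(Spec S, (Spec.map φ) ⁻¹ᵁ ⊤) := RingEquiv.refl _
  let θ' : Γ(tilde ((ModuleCat.extendScalars φ.hom).obj N), ⊤) ≃+
      Γ((tilde.functor R ⋙ Modules.pullback (Spec.map φ)).obj N, (Spec.map φ) ⁻¹ᵁ ⊤) :=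
    (appAddEquiv ((pullbackTildeIso φ).app N) ((Spec.map φ) ⁻¹ᵁ ⊤)).symm
  have h3 := h2.comp_equiv (S' := Γ(Spec S, (Spec.map φ) ⁻¹ᵁ ⊤))
    (B' := Γ((tilde.functor R ⋙ Modules.pullback (Spec.map φ)).obj N, (Spec.map φ) ⁻¹ᵁ ⊤)) σ' θ'
    (fun s b => appAddEquiv_symm_smul ((pullbackTildeIso φ).app N) ((Spec.map φ) ⁻¹ᵁ ⊤) s b)
  have h4 := h3.equiv_comp (gammaTopEquiv R).symm (toOpenTopEquiv N).symm (fun r a => by
    apply (toOpenTopEquiv N).injective
    rw [toOpenTopEquiv_smul, AddEquiv.apply_symm_apply, AddEquiv.apply_symm_apply,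
      RingEquiv.apply_symm_apply])
  refine h4.congr (fun r => ?_) (fun a => ?_)
  · change (Scheme.ΓSpecIso S).inv (φ ((Scheme.ΓSpecIso R).hom r)) = (Spec.map φ).app ⊤ r
    have h5 := congr($(Scheme.ΓSpecIso_inv_naturality φ) ((Scheme.ΓSpecIso R).hom r))
    refine h5.trans ?_
    change (Spec.map φ).app ⊤ ((Scheme.ΓSpecIso R).inv ((Scheme.ΓSpecIso R).hom r)) = _
    congr 1
    exact congr($((Scheme.ΓSpecIso R).hom_inv_id) r)
  · obtain ⟨n, rfl⟩ := (toOpenTopEquiv N).surjective a
    change (appAddEquiv ((pullbackTildeIso φ).app N) ((Spec.map φ) ⁻¹ᵁ ⊤)).symm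
      (tilde.toOpen ((ModuleCat.extendScalars φ.hom).obj N) ⊤
        ((ModuleCat.extendRestrictScalarsAdj φ.hom).unit.app N
          ((toOpenTopEquiv N).symm (toOpenTopEquiv N n)))) = _
    rw [AddEquiv.symm_apply_apply, ← pullbackTildeIso_unitSec]
    exact (appAddEquiv ((pullbackTildeIso φ).app N) ((Spec.map φ) ⁻¹ᵁ ⊤)).symm_apply_apply _


variable {X Y Z : Scheme.{u}}

/-- The base change property of the canonical map `Γ(M, V) → Γ(h^* M, U)`:
it is a base change along `Γ(Y, V) → Γ(X, U)`. -/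
def SectionsBC (h : X ⟶ Y) (M : Y.Modules) (V : Y.Opens) (U : X.Opens) (hUV : U ≤ h ⁻¹ᵁ V) :
    Prop :=
  IsBC (h.appLE V U hUV).hom (pullbackSections h M V U hUV).hom

lemma SectionsBC.of_iso {h : X ⟶ Y} {M N : Y.Modules} (e : M ≅ N) {V : Y.Opens} {U : X.Opens}
    {hUV : U ≤ h ⁻¹ᵁ V} (H : SectionsBC h M V U hUV) : SectionsBC h N V U hUV := by
  have h1 := IsBC.equiv_comp H (RingEquiv.refl _) (appAddEquiv e V).symm
    (fun r a => appAddEquiv_symm_smul e V r a)
  have h2 := h1.comp_equiv (RingEquiv.refl _) (appAddEquiv ((Modules.pullback h).mapIso e) U)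
    (fun s b => appAddEquiv_smul _ U s b)
  refine h2.congr (fun r => rfl) (fun a => ?_)
  change ((Modules.pullback h).map e.hom).app U (pullbackSections h M V U hUV (e.inv.app V a)) = _
  rw [pullbackSections_naturality]
  congr 1
  exact (appAddEquiv e V).apply_symm_apply a

lemma SectionsBC.congr_hom {f f' : X ⟶ Y} (e : f = f') (M : Y.Modules) (V : Y.Opens)
    (U : X.Opens) (hUV : U ≤ f ⁻¹ᵁ V) (H : SectionsBC f M V U hUV) :
    SectionsBC f' M V U (e ▸ hUV) := by
  subst e
  exact H

lemma SectionsBC.comp_of_bijective (f : X ⟶ Y) (g : Y ⟶ Z) (M : Z.Modules) (W : Z.Opens)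
    (V : Y.Opens) (U : X.Opens) (hVW : V ≤ g ⁻¹ᵁ W) (hUV : U ≤ f ⁻¹ᵁ V)
    (hring : Function.Bijective (g.appLE W V hVW).hom)
    (hsec : Function.Bijective (pullbackSections g M W V hVW).hom)
    (H : SectionsBC f ((Modules.pullback g).obj M) V U hUV) :
    SectionsBC (f ≫ g) M W U (fun _ hx => hVW (hUV hx)) := by
  let ρ : Γ(Z, W) ≃+* Γ(Y, V) := RingEquiv.ofBijective (g.appLE W V hVW).hom hring
  let d : Γ(M, W) ≃+ Γ((Modules.pullback g).obj M, V) :=
    AddEquiv.ofBijective (pullbackSections g M W V hVW).hom hsec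
  have h1 := IsBC.equiv_comp H ρ d (fun r a => pullbackSections_smul g M W V hVW r a)
  let κ := appAddEquiv ((Modules.pullbackComp f g).app M) U
  have h2 := h1.comp_equiv (RingEquiv.refl _) κ (fun s b => appAddEquiv_smul _ U s b)
  refine h2.congr (fun r => ?_) (fun a => ?_)
  · exact congr($(Scheme.Hom.appLE_comp_appLE f g W V U hVW hUV) r)
  · change κ (pullbackSections f ((Modules.pullback g).obj M) V U hUV
      (pullbackSections g M W V hVW a)) = _
    rw [← pullbackSections_comp f g M W V U hVW hUV a]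
    exact κ.apply_symm_apply _

lemma SectionsBC.of_comp_of_bijective (f : X ⟶ Y) (g : Y ⟶ Z) (M : Z.Modules) (W : Z.Opens)
    (V : Y.Opens) (U : X.Opens) (hVW : V ≤ g ⁻¹ᵁ W) (hUV : U ≤ f ⁻¹ᵁ V)
    (hring : Function.Bijective (f.appLE V U hUV).hom)
    (hsec : Function.Bijective (pullbackSections f ((Modules.pullback g).obj M) V U hUV).hom)
    (H : SectionsBC (f ≫ g) M W U (fun _ hx => hVW (hUV hx))) :
    SectionsBC g M W V hVW := by
  let ρ : Γ(Y, V) ≃+* Γ(X, U) := RingEquiv.ofBijective (f.appLE V U hUV).hom hring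
  let d : Γ((Modules.pullback g).obj M, V) ≃+
      Γ((Modules.pullback f).obj ((Modules.pullback g).obj M), U) :=
    AddEquiv.ofBijective (pullbackSections f ((Modules.pullback g).obj M) V U hUV).hom hsec
  have hd : ∀ (r : Γ(Y, V)) (a : Γ((Modules.pullback g).obj M, V)), d (r • a) = ρ r • d a :=
    fun r a => pullbackSections_smul f _ V U hUV r a
  let κ := appAddEquiv ((Modules.pullbackComp f g).app M) U
  have h1 := IsBC.comp_equiv H (RingEquiv.refl _) κ.symm
    (fun s b => appAddEquiv_symm_smul _ U s b)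
  have h2 := h1.comp_equiv ρ.symm d.symm (fun s b => by
    apply d.injective
    rw [hd, AddEquiv.apply_symm_apply, AddEquiv.apply_symm_apply, RingEquiv.apply_symm_apply])
  refine h2.congr (fun r => ?_) (fun a => ?_)
  · change ρ.symm ((f ≫ g).appLE W U _ r) = g.appLE W V hVW r
    rw [RingEquiv.symm_apply_eq]
    exact congr($(Scheme.Hom.appLE_comp_appLE f g W V U hVW hUV) r).symm
  · change d.symm (κ.symm (pullbackSections (f ≫ g) M W U _ a)) = pullbackSections g M W V hVW a
    rw [AddEquiv.symm_apply_eq]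
    exact pullbackSections_comp f g M W V U hVW hUV a

lemma presheaf_map_bijective_of_eq (M : X.Modules) {U V : X.Opens} (h : U = V) (i : U ⟶ V) :
    Function.Bijective (M.presheaf.map i.op) := by
  subst h
  rw [Subsingleton.elim i (𝟙 _)]
  have : M.presheaf.map (𝟙 U).op = 𝟙 _ := M.presheaf.map_id _
  rw [this]
  exact Function.bijective_id

lemma structure_map_bijective_of_eq (X : Scheme.{u}) {U V : X.Opens} (h : U = V) (i : U ⟶ V) :
    Function.Bijective (X.presheaf.map i.op) := by
  subst h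
  rw [Subsingleton.elim i (𝟙 _)]
  have : X.presheaf.map (𝟙 U).op = 𝟙 _ := X.presheaf.map_id _
  rw [this]
  exact Function.bijective_id

lemma pullbackSections_bijective_of_image_eq (s : X ⟶ Y) [IsOpenImmersion s] (M : Y.Modules)
    (V : Y.Opens) (U : X.Opens) (hV : s ''ᵁ U = V) (hUV : U ≤ s ⁻¹ᵁ V) :
    Function.Bijective (pullbackSections s M V U hUV) := by
  have h2 : Function.Bijective (((Modules.restrictFunctorIsoPullback s).hom.app M).app U) :=
    (ConcreteCategory.isIso_iff_bijective _).mp inferInstance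
  have h3 := presheaf_map_bijective_of_eq M hV (homOfLE (image_le_of_le_preimage s hUV))
  have h4 : ∀ x, pullbackSections s M V U hUV x =
      ((Modules.restrictFunctorIsoPullback s).hom.app M).app U
        (M.presheaf.map (homOfLE (image_le_of_le_preimage s hUV)).op x) :=
    fun x => pullbackSections_openImmersion s M V U hUV x
  refine ⟨fun a b hab => h3.1 (h2.1 ?_), fun y => ?_⟩
  · rw [← h4 a, ← h4 b]; exact hab
  · obtain ⟨z, hz⟩ := h2.2 y
    obtain ⟨x, hx⟩ := h3.2 z
    exact ⟨x, by rw [h4 x, hx, hz]⟩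

lemma appLE_bijective_of_image_eq (s : X ⟶ Y) [IsOpenImmersion s]
    (V : Y.Opens) (U : X.Opens) (hV : s ''ᵁ U = V) (hUV : U ≤ s ⁻¹ᵁ V) :
    Function.Bijective (s.appLE V U hUV) := by
  have h1 := Scheme.Hom.appLE_appIso_inv s hUV
  have h2 : s.appLE V U hUV = Y.presheaf.map (homOfLE (image_le_of_le_preimage s hUV)).op ≫
      (s.appIso U).hom := by
    rw [← h1, Category.assoc, Iso.inv_hom_id, Category.comp_id]
  rw [h2]
  have h3 := structure_map_bijective_of_eq Y hV (homOfLE (image_le_of_le_preimage s hUV))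
  have h4 : Function.Bijective (s.appIso U).hom :=
    (ConcreteCategory.isIso_iff_bijective _).mp inferInstance
  exact h4.comp h3

/-- The affine case, in `SectionsBC` form, for `tilde N`. -/
lemma sectionsBC_tilde {R S : CommRingCat.{u}} (φ : R ⟶ S) (N : ModuleCat.{u} R) :
    SectionsBC (Spec.map φ) ((tilde.functor R).obj N) ⊤ ⊤ le_top := by
  have h1 := isBC_unitSec_tilde φ N
  let σ' : Γ(Spec S, (Spec.map φ) ⁻¹ᵁ ⊤) ≃+* Γ(Spec S, ⊤) := RingEquiv.refl _
  let θ' : Γ((Modules.pullback (Spec.map φ)).obj ((tilde.functor R).obj N), (Spec.map φ) ⁻¹ᵁ ⊤) ≃+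
      Γ((Modules.pullback (Spec.map φ)).obj ((tilde.functor R).obj N), ⊤) := AddEquiv.refl _
  have h2 := h1.comp_equiv (S' := Γ(Spec S, ⊤))
    (B' := Γ((Modules.pullback (Spec.map φ)).obj ((tilde.functor R).obj N), ⊤)) σ' θ'
    (fun s b => rfl)
  refine h2.congr (fun r => ?_) (fun a => ?_)
  · change (Spec.map φ).app ⊤ r = (Spec.map φ).appLE ⊤ ⊤ le_top r
    rw [Scheme.Hom.app_eq_appLE]
    rfl
  · change unitSec (Spec.map φ) ((tilde.functor R).obj N) ⊤ a =
      pullbackSections (Spec.map φ) ((tilde.functor R).obj N) ⊤ ⊤ le_top a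
    rw [pullbackSections_apply]
    exact (congr($(((Modules.pullback (Spec.map φ)).obj ((tilde.functor R).obj N)).presheaf.map_id
      _) _)).symm

/-- The affine case: quasi-coherent modules on `Spec R`. -/
lemma sectionsBC_Spec {R S : CommRingCat.{u}} (φ : R ⟶ S) (M : (Spec R).Modules)
    [M.IsQuasicoherent] : SectionsBC (Spec.map φ) M ⊤ ⊤ le_top := by
  have : IsIso M.fromTildeΓ := inferInstance
  exact (sectionsBC_tilde φ _).of_iso (asIso M.fromTildeΓ)

/-- **Canonical base change for sections of pullbacks.**  For `h : X ⟶ Y`, a quasi-coherent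
module `M` on `Y`, affine opens `V ⊆ Y` and `U ⊆ h⁻¹ V`, the canonical map
`Γ(M, V) → Γ(h^* M, U)` is a base change along `Γ(Y, V) → Γ(X, U)`. -/
theorem sectionsBC_of_isAffineOpen (h : X ⟶ Y) (M : Y.Modules) [M.IsQuasicoherent]
    {V : Y.Opens} (hV : IsAffineOpen V) {U : X.Opens} (hU : IsAffineOpen U)
    (hUV : U ≤ h ⁻¹ᵁ V) : SectionsBC h M V U hUV := by
  have comm : Spec.map (h.appLE V U hUV) ≫ hV.fromSpec = hU.fromSpec ≫ h :=
    IsAffineOpen.SpecMap_appLE_fromSpec h hV hU hUV
  have hVtop : hV.fromSpec ''ᵁ ⊤ = V := by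
    rw [Scheme.Hom.image_top_eq_opensRange, hV.opensRange_fromSpec]
  have hUtop : hU.fromSpec ''ᵁ ⊤ = U := by
    rw [Scheme.Hom.image_top_eq_opensRange, hU.opensRange_fromSpec]
  have hVle : (⊤ : (Spec Γ(Y, V)).Opens) ≤ hV.fromSpec ⁻¹ᵁ V := by
    rw [hV.fromSpec_preimage_self]
  have hUle : (⊤ : (Spec Γ(X, U)).Opens) ≤ hU.fromSpec ⁻¹ᵁ U := by
    rw [hU.fromSpec_preimage_self]
  -- the pullback of `M` to `Spec Γ(Y, V)` is quasi-coherent
  have hq : ((Modules.restrictFunctor hV.fromSpec).obj M).IsQuasicoherent := inferInstance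
  have : ((Modules.pullback hV.fromSpec).obj M).IsQuasicoherent :=
    ObjectProperty.prop_of_iso (SheafOfModules.isQuasicoherent (Spec Γ(Y, V)).ringCatSheaf)
      ((Modules.restrictFunctorIsoPullback hV.fromSpec).app M) hq
  have h1 := sectionsBC_Spec (h.appLE V U hUV) ((Modules.pullback hV.fromSpec).obj M)
  have h2 := SectionsBC.comp_of_bijective (Spec.map (h.appLE V U hUV)) hV.fromSpec M V ⊤ ⊤
    hVle le_top (appLE_bijective_of_image_eq _ V ⊤ hVtop hVle)
    (pullbackSections_bijective_of_image_eq _ M V ⊤ hVtop hVle) h1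
  have h3 := SectionsBC.congr_hom comm M V ⊤ _ h2
  exact SectionsBC.of_comp_of_bijective hU.fromSpec h M V U ⊤ hUV hUle
    (appLE_bijective_of_image_eq _ U ⊤ hUtop hUle)
    (pullbackSections_bijective_of_image_eq _ _ U ⊤ hUtop hUle) h3

open TensorProduct

variable {X Y : Scheme.{u}}

/-- **Sections of a pullback on affine opens are a tensor product.** -/
theorem exists_tensorEquiv_pullbackSections (h : X ⟶ Y) (M : Y.Modules) [M.IsQuasicoherent]
    {V : Y.Opens} (hV : IsAffineOpen V) {U : X.Opens} (hU : IsAffineOpen U)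
    (hUV : U ≤ h ⁻¹ᵁ V) :
    letI := (h.appLE V U hUV).hom.toAlgebra
    ∃ e : Γ(X, U) ⊗[Γ(Y, V)] Γ(M, V) ≃ₗ[Γ(X, U)] Γ((Modules.pullback h).obj M, U),
      ∀ (s : Γ(X, U)) (m : Γ(M, V)), e (s ⊗ₜ[Γ(Y, V)] m) = s • pullbackSections h M V U hUV m := by
  exact @IsBC.exists_tensorEquiv Γ(Y, V) Γ(X, U) Γ(M, V) Γ((Modules.pullback h).obj M, U)
    _ _ _ _ _ _ (h.appLE V U hUV).hom.toAlgebra _ (sectionsBC_of_isAffineOpen h M hV hU hUV)

/-- **Sections of a pullback on affine opens are a base change** (Mathlib `IsBaseChange` form):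
any `Γ(Y, V)`-linear map agreeing with `pullbackSections` is a base change. -/
theorem isBaseChange_pullbackSections (h : X ⟶ Y) (M : Y.Modules) [M.IsQuasicoherent]
    {V : Y.Opens} (hV : IsAffineOpen V) {U : X.Opens} (hU : IsAffineOpen U)
    (hUV : U ≤ h ⁻¹ᵁ V) [Algebra Γ(Y, V) Γ(X, U)]
    (halg : algebraMap Γ(Y, V) Γ(X, U) = (h.appLE V U hUV).hom)
    [Module Γ(Y, V) Γ((Modules.pullback h).obj M, U)]
    [IsScalarTower Γ(Y, V) Γ(X, U) Γ((Modules.pullback h).obj M, U)]
    (f : Γ(M, V) →ₗ[Γ(Y, V)] Γ((Modules.pullback h).obj M, U))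
    (hf : ∀ m, f m = pullbackSections h M V U hUV m) : IsBaseChange Γ(X, U) f := by
  have h1 : IsBC (algebraMap Γ(Y, V) Γ(X, U)) (pullbackSections h M V U hUV).hom := by
    rw [halg]
    exact sectionsBC_of_isAffineOpen h M hV hU hUV
  exact h1.isBaseChange f hf

end Fermat.Agent.S25.DICT.H2050.BaseChange
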