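/-
S25 / DICT, leaf **P8** `isBC_toGlued` of helper5590's `DICT/Plan.lean` (EXACT statement):
sections of a pullback along a morphism of two-chart atlases are the base change of the sections,

    isBC_toGlued :
      GluedModule.IsBC Ψ (𝒜.toGlued M) (𝒜'.toGlued ((Scheme.Modules.pullback h).obj M))

Port by helper2050 of helper2390's `DICT/BaseChange.lean` (leaf (BC) of helper851's plan, same
mathematics; the compatibility squares `h₁ h₂` are oriented the other way round there) onto the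
frozen files `DICT/{QcLoc,ToGlued}.lean` of helper5590.  The three maps `j₁ j₂ j₁₂` are the
canonical "pull back a section" maps `pullbackSections g M (φ ''ᵁ ⊤) (φ' ''ᵁ ⊤)` of
`DICT/H2050/PullbackSections.lean` (= helper2390, namespace renamed); their universal property
is `sectionsBC_of_isAffineOpen` transported along the chart isomorphisms
`chartRes : B ≅ Γ(X, φ ''ᵁ ⊤)`.
-/
import Fermat.Agent.S25.SchDefs
import Fermat.Agent.S25.DICT.ToGlued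
import Fermat.Agent.S25.DICT.H2050.PullbackSections

set_option autoImplicit false

universe u

open CategoryTheory AlgebraicGeometry TopologicalSpace Opposite

namespace Fermat.Agent.S25.DICT.H2050

namespace BaseChange

section Square

variable {X X' : Scheme.{u}} {A A' : CommRingCat.{u}}
  (φ : Spec A ⟶ X) [IsOpenImmersion φ] (φ' : Spec A' ⟶ X') [IsOpenImmersion φ']
  (g : X' ⟶ X) (ψ : A ⟶ A') (h : Spec.map ψ ≫ φ = φ' ≫ g)

include h in
/-- The chart `φ'` lands in the preimage of the chart `φ`. -/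
lemma image_top_le_preimage : φ' ''ᵁ ⊤ ≤ g ⁻¹ᵁ (φ ''ᵁ ⊤) := by
  rintro _ ⟨x, -, rfl⟩
  refine ⟨Spec.map ψ x, trivial, ?_⟩
  have e := congr($(h) x)
  simpa using e

lemma appLE_congr_hom {Y Z : Scheme.{u}} {f f' : Y ⟶ Z} (e : f = f') (V : Z.Opens)
    (U : Y.Opens) (hUV : U ≤ f ⁻¹ᵁ V) : f.appLE V U hUV = f'.appLE V U (e ▸ hUV) := by
  subst e; rfl

/-- The chart ring isomorphisms intertwine `ψ` and the comorphism of `g`. -/
lemma chartRes_appLE :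
    chartRes φ ⊤ ≫ g.appLE (φ ''ᵁ ⊤) (φ' ''ᵁ ⊤) (image_top_le_preimage φ φ' g ψ h) =
      ψ ≫ chartRes φ' ⊤ := by
  rw [← cancel_mono (φ'.appIso ⊤).hom]
  simp only [chartRes, Category.assoc, Iso.inv_hom_id, Category.comp_id]
  rw [Scheme.Hom.appIso_hom', Scheme.Hom.appLE_comp_appLE, appLE_congr_hom h.symm]
  have e₁ : (⊤ : (Spec A).Opens) ≤ φ ⁻¹ᵁ (φ ''ᵁ ⊤) := by rw [Scheme.Hom.preimage_image_eq]
  rw [← Scheme.Hom.appLE_comp_appLE (Spec.map ψ) φ (φ ''ᵁ ⊤) ⊤ ⊤ e₁ le_top]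
  rw [Scheme.Hom.appIso_inv_appLE_assoc, Scheme.Hom.map_appLE,
    Scheme.Hom.appLE, ← Category.assoc ψ, Scheme.ΓSpecIso_inv_naturality, Category.assoc]
  rfl

lemma chartRes_appLE_apply (a : A) :
    g.appLE (φ ''ᵁ ⊤) (φ' ''ᵁ ⊤) (image_top_le_preimage φ φ' g ψ h) (chartRes φ ⊤ a) =
      chartRes φ' ⊤ (ψ a) :=
  congr($(chartRes_appLE φ φ' g ψ h) a)

lemma chartRes_top_bijective : Function.Bijective (chartRes φ ⊤) := by
  have h1 : IsIso ((Spec A).presheaf.map (⊤ : (Spec A).Opens).leTop.op) := by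
    rw [Subsingleton.elim (⊤ : (Spec A).Opens).leTop (𝟙 _)]
    infer_instance
  have : IsIso (chartRes φ ⊤) := by
    unfold chartRes
    infer_instance
  exact ConcreteCategory.bijective_of_isIso _

/-- The chart ring isomorphism `A ≃+* Γ(X, φ(Spec A))`. -/
noncomputable def chartResEquiv : A ≃+* Γ(X, φ ''ᵁ ⊤) :=
  RingEquiv.ofBijective (chartRes φ ⊤).hom (chartRes_top_bijective φ)

lemma chartResEquiv_apply (a : A) : chartResEquiv φ a = chartRes φ ⊤ a := rfl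

variable (M : X.Modules)

/-- The canonical map from the sections of `M` over the chart `φ` to the sections of `g^* M`
over the chart `φ'`. -/
noncomputable def jChart :
    Γ(M.restrict φ, ⊤) →+ Γ(((Scheme.Modules.pullback g).obj M).restrict φ', ⊤) :=
  (pullbackSections g M (φ ''ᵁ ⊤) (φ' ''ᵁ ⊤) (image_top_le_preimage φ φ' g ψ h)).hom

lemma jChart_apply (x : Γ(M.restrict φ, ⊤)) :
    jChart φ φ' g ψ h M x =
      pullbackSections g M (φ ''ᵁ ⊤) (φ' ''ᵁ ⊤) (image_top_le_preimage φ φ' g ψ h) x := rfl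

/-- `jChart` is semilinear along `ψ`. -/
lemma jChart_smul (a : A) (x : Γ(M.restrict φ, ⊤)) :
    jChart φ φ' g ψ h M (a • x) = ψ a • jChart φ φ' g ψ h M x := by
  rw [smul_restrict_chart φ' _ ⊤ (ψ a), smul_restrict_chart φ M ⊤ a,
    ← chartRes_appLE_apply φ φ' g ψ h a]
  exact pullbackSections_smul g M _ _ _ _ _

/-- `jChart` is a base change along `ψ` (universal property). -/
theorem jChart_isBC [M.IsQuasicoherent] : IsBC ψ.hom (jChart φ φ' g ψ h M) := by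
  have hV : IsAffineOpen (φ ''ᵁ ⊤) := (isAffineOpen_top (Spec A)).image_of_isOpenImmersion φ
  have hU : IsAffineOpen (φ' ''ᵁ ⊤) := (isAffineOpen_top (Spec A')).image_of_isOpenImmersion φ'
  have H : SectionsBC g M (φ ''ᵁ ⊤) (φ' ''ᵁ ⊤) (image_top_le_preimage φ φ' g ψ h) :=
    sectionsBC_of_isAffineOpen g M hV hU _
  let d : Γ(M.restrict φ, ⊤) ≃+ Γ(M, φ ''ᵁ ⊤) := AddEquiv.refl _
  have h1 := IsBC.equiv_comp (R' := A) (A' := Γ(M.restrict φ, ⊤)) H (chartResEquiv φ) d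
    (fun a x => smul_restrict_chart φ M ⊤ a x)
  let e : Γ((Scheme.Modules.pullback g).obj M, φ' ''ᵁ ⊤) ≃+
      Γ(((Scheme.Modules.pullback g).obj M).restrict φ', ⊤) := AddEquiv.refl _
  have h2 := IsBC.comp_equiv (S' := A')
    (B' := Γ(((Scheme.Modules.pullback g).obj M).restrict φ', ⊤)) h1 (chartResEquiv φ').symm e
    (fun s b => by
      have h3 := smul_restrict_chart φ' ((Scheme.Modules.pullback g).obj M) ⊤
        ((chartResEquiv φ').symm s) b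
      rw [← chartResEquiv_apply, RingEquiv.apply_symm_apply] at h3
      exact h3.symm)
  refine h2.congr (fun a => ?_) (fun x => rfl)
  change (chartResEquiv φ').symm (g.appLE _ _ _ (chartRes φ ⊤ a)) = ψ a
  rw [RingEquiv.symm_apply_eq, chartResEquiv_apply]
  exact chartRes_appLE_apply φ φ' g ψ h a

end Square

section Overlap

variable {R : Type u} [CommRing R] {𝔹 : TwoChart R} {X : Scheme.{u}} (𝒜 : Atlas X 𝔹)
  {R' : Type u} [CommRing R'] {φ : R →+* R'} {𝔹' : TwoChart R'}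
  (Ψ : TwoChart.Hom φ 𝔹 𝔹') {X' : Scheme.{u}} (𝒜' : Atlas X' 𝔹') (g : X' ⟶ X)

/-- The compatibility square of the overlap charts follows from the one of the first charts. -/
lemma square₁₂ (h₁ : Spec.map (CommRingCat.ofHom Ψ.ψ₁) ≫ 𝒜.φ₁ = 𝒜'.φ₁ ≫ g) :
    Spec.map (CommRingCat.ofHom Ψ.ψ₁₂) ≫ 𝒜.φ₁₂ = 𝒜'.φ₁₂ ≫ g := by
  have e : ρ₁ 𝔹 ≫ CommRingCat.ofHom Ψ.ψ₁₂ = CommRingCat.ofHom Ψ.ψ₁ ≫ ρ₁ 𝔹' := by
    ext b
    exact Ψ.comm₁ b
  rw [Atlas.φ₁₂_eq₁, Atlas.φ₁₂_eq₁, Category.assoc, ← h₁, ← Category.assoc, ← Category.assoc,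
    ← Spec.map_comp, ← Spec.map_comp, e]

end Overlap

end BaseChange

section Abstract

variable {R : Type u} [CommRing R] {𝔹 : TwoChart R} {X : Scheme.{u}} (𝒜 : Atlas X 𝔹)

/-- **P8** (SM3-BC) Sections of a pullback along a morphism of two-chart atlases are the base
change of the sections: `Γ(h^*M, W'_i) = B'_i ⊗[B_i] Γ(M, W_i)` for quasi-coherent `M`.
EXACT statement of `isBC_toGlued` in helper5590's `DICT/Plan.lean`. -/
theorem isBC_toGlued {R' : Type u} [CommRing R'] {φ : R →+* R'} {𝔹' : TwoChart R'}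
    (Ψ : TwoChart.Hom φ 𝔹 𝔹') {X' : Scheme.{u}} (𝒜' : Atlas X' 𝔹') (h : X' ⟶ X)
    (h₁ : 𝒜'.φ₁ ≫ h = Spec.map (CommRingCat.ofHom Ψ.ψ₁) ≫ 𝒜.φ₁)
    (h₂ : 𝒜'.φ₂ ≫ h = Spec.map (CommRingCat.ofHom Ψ.ψ₂) ≫ 𝒜.φ₂)
    (M : X.Modules) [M.IsQuasicoherent] [((Scheme.Modules.pullback h).obj M).IsQuasicoherent] :
    GluedModule.IsBC Ψ (𝒜.toGlued M) (𝒜'.toGlued ((Scheme.Modules.pullback h).obj M)) := by
  have h₁' := h₁.symm
  have h₂' := h₂.symm
  have h₁₂ := BaseChange.square₁₂ 𝒜 Ψ 𝒜' h h₁'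
  exact ⟨{
    j₁ := BaseChange.jChart 𝒜.φ₁ 𝒜'.φ₁ h (CommRingCat.ofHom Ψ.ψ₁) h₁' M
    j₂ := BaseChange.jChart 𝒜.φ₂ 𝒜'.φ₂ h (CommRingCat.ofHom Ψ.ψ₂) h₂' M
    j₁₂ := BaseChange.jChart 𝒜.φ₁₂ 𝒜'.φ₁₂ h (CommRingCat.ofHom Ψ.ψ₁₂) h₁₂ M
    j₁_smul := BaseChange.jChart_smul 𝒜.φ₁ 𝒜'.φ₁ h (CommRingCat.ofHom Ψ.ψ₁) h₁' M
    j₂_smul := BaseChange.jChart_smul 𝒜.φ₂ 𝒜'.φ₂ h (CommRingCat.ofHom Ψ.ψ₂) h₂' M
    j₁₂_smul := BaseChange.jChart_smul 𝒜.φ₁₂ 𝒜'.φ₁₂ h (CommRingCat.ofHom Ψ.ψ₁₂) h₁₂ M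
    comm₁ := fun n => (BaseChange.pullbackSections_res h M _ _ _ _ n).symm
    comm₂ := fun n => (BaseChange.pullbackSections_res h M _ _ _ _ n).symm
    univ₁ := (BaseChange.jChart_isBC 𝒜.φ₁ 𝒜'.φ₁ h (CommRingCat.ofHom Ψ.ψ₁) h₁' M).2
    univ₂ := (BaseChange.jChart_isBC 𝒜.φ₂ 𝒜'.φ₂ h (CommRingCat.ofHom Ψ.ψ₂) h₂' M).2 }⟩

end Abstract

end Fermat.Agent.S25.DICT.H2050
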